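import Mathlib
import Fermat.Agent.S18.B12.Spec

/-!
# S18 / Route K / b2, piece P2' (helper393): `SFIdemStatement` from `SFLatticeStatement`

`sfIdem_of_sfLattice : SFLatticeStatement → SFIdemStatement`.

Proof: put `Ct := C + C ε` (a subalgebra since `ε² = ε`).  Then `C ≤ Ct`, `g₀ • Ct ⊆ C`, so
`Ct` embeds in the noetherian module `C` (multiplication by `g₀`, `L` torsion-free): `Ct` is finite,
torsion-free, hence free over the PID `Λ`, of the same rank `n` as `C`.  Apply `SFLatticeStatement`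
to `ε ∈ Ct`.
-/

set_option autoImplicit false

noncomputable section

namespace Fermat.Agent.S18.B12.H393

open Fermat.Agent.S18.B12

universe u v

/-- The subalgebra `C + C ε` for an idempotent `ε`. -/
def adjoinIdem {Λ : Type u} [CommRing Λ] {L : Type v} [CommRing L] [Algebra Λ L]
    (C : Subalgebra Λ L) (ε : L) (hε : ε * ε = ε) : Subalgebra Λ L where
  carrier := {x | ∃ c₁ ∈ C, ∃ c₂ ∈ C, x = c₁ + c₂ * ε}
  mul_mem' := by
    rintro _ _ ⟨c₁, hc₁, c₂, hc₂, rfl⟩ ⟨d₁, hd₁, d₂, hd₂, rfl⟩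
    refine ⟨c₁ * d₁, C.mul_mem hc₁ hd₁, c₁ * d₂ + c₂ * d₁ + c₂ * d₂,
      C.add_mem (C.add_mem (C.mul_mem hc₁ hd₂) (C.mul_mem hc₂ hd₁)) (C.mul_mem hc₂ hd₂), ?_⟩
    have : (c₁ + c₂ * ε) * (d₁ + d₂ * ε) =
        c₁ * d₁ + (c₁ * d₂ + c₂ * d₁) * ε + c₂ * d₂ * (ε * ε) := by ring
    rw [this, hε]; ring
  add_mem' := by
    rintro _ _ ⟨c₁, hc₁, c₂, hc₂, rfl⟩ ⟨d₁, hd₁, d₂, hd₂, rfl⟩
    exact ⟨c₁ + d₁, C.add_mem hc₁ hd₁, c₂ + d₂, C.add_mem hc₂ hd₂, by ring⟩
  algebraMap_mem' := fun r => ⟨algebraMap Λ L r, C.algebraMap_mem r, 0, C.zero_mem, by simp⟩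

theorem le_adjoinIdem {Λ : Type u} [CommRing Λ] {L : Type v} [CommRing L] [Algebra Λ L]
    (C : Subalgebra Λ L) (ε : L) (hε : ε * ε = ε) : C ≤ adjoinIdem C ε hε :=
  fun c hc => ⟨c, hc, 0, C.zero_mem, by simp⟩

theorem self_mem_adjoinIdem {Λ : Type u} [CommRing Λ] {L : Type v} [CommRing L] [Algebra Λ L]
    (C : Subalgebra Λ L) (ε : L) (hε : ε * ε = ε) : ε ∈ adjoinIdem C ε hε :=
  ⟨0, C.zero_mem, 1, C.one_mem, by simp⟩

theorem smul_mem_of_mem_adjoinIdem {Λ : Type u} [CommRing Λ] {L : Type v} [CommRing L]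
    [Algebra Λ L] (C : Subalgebra Λ L) (ε : L) (hε : ε * ε = ε) {g₀ : Λ} (hg : g₀ • ε ∈ C)
    {x : L} (hx : x ∈ adjoinIdem C ε hε) : g₀ • x ∈ C := by
  obtain ⟨c₁, hc₁, c₂, hc₂, rfl⟩ := hx
  have : g₀ • (c₁ + c₂ * ε) = g₀ • c₁ + c₂ * (g₀ • ε) := by
    rw [smul_add, mul_smul_comm]
  rw [this]
  exact C.add_mem (C.smul_mem hc₁ g₀) (C.mul_mem hc₂ hg)

/-- **P2'.** `SFIdemStatement` follows from `SFLatticeStatement`. -/
theorem sfIdem_of_sfLattice (hSF : SFLatticeStatement.{u, v}) : SFIdemStatement.{u, v} := by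
  intro Λ _ _ _ t ht L _ _ _ C n b s y hy hd0 hd ε hε hg₀
  obtain ⟨g₀, hg₀0, hg₀⟩ := hg₀
  classical
  set Ct : Subalgebra Λ L := adjoinIdem C ε hε with hCt
  have hle : C ≤ Ct := le_adjoinIdem C ε hε
  -- multiplication by `g₀` embeds `Ct` into `C`
  let φ : Ct →ₗ[Λ] C :=
    { toFun := fun x => ⟨g₀ • (x : L), smul_mem_of_mem_adjoinIdem C ε hε hg₀ x.2⟩
      map_add' := fun x y => Subtype.ext (by simp [smul_add])
      map_smul' := fun r x => Subtype.ext (by simp [smul_comm g₀ r]) }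
  have hφ : Function.Injective φ := by
    intro x y hxy
    have h1 : g₀ • (x : L) = g₀ • (y : L) := congrArg (fun z : C => (z : L)) hxy
    have h2 : g₀ • ((x : L) - (y : L)) = 0 := by rw [smul_sub, h1, sub_self]
    have h3 : (x : L) - (y : L) = 0 := (smul_eq_zero.mp h2).resolve_left hg₀0
    exact Subtype.ext (sub_eq_zero.mp h3)
  have hfinC : Module.Finite Λ C := Module.Finite.of_basis b
  have hnoeth : IsNoetherian Λ C := inferInstance
  have hfinCt : Module.Finite Λ Ct := Module.Finite.of_injective φ hφ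
  have hfreeCt : Module.Free Λ Ct := Module.free_of_finite_type_torsion_free'
  -- the inclusion `C → Ct`
  let ι : C →ₗ[Λ] Ct :=
    { toFun := fun x => ⟨(x : L), hle x.2⟩
      map_add' := fun _ _ => rfl
      map_smul' := fun _ _ => rfl }
  have hι : Function.Injective ι := fun x y hxy =>
    Subtype.ext (congrArg (fun z : Ct => (z : L)) hxy)
  have hrankC : Module.finrank Λ C = n := by
    rw [Module.finrank_eq_card_basis b, Fintype.card_fin]
  have hrank : Module.finrank Λ Ct = n := by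
    apply le_antisymm
    · rw [← hrankC]; exact LinearMap.finrank_le_finrank_of_injective hφ
    · rw [← hrankC]; exact LinearMap.finrank_le_finrank_of_injective hι
  let bt : Module.Basis (Fin n) Λ Ct := Module.finBasisOfFinrankEq Λ Ct hrank
  exact hSF Λ t ht L C Ct hle n b bt s y hy hd0 hd ε (self_mem_adjoinIdem C ε hε)

end Fermat.Agent.S18.B12.H393
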